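import Mathlib
import Fermat.Prelude.Def_ModularCurve_IgusaScheme

/-!
# S28 / package SCH (helper10): scheme glue

`h10_sch` : the fibre `pullback (igusaTo N ℓ) (Spec K ⟶ Spec ℤ_(ℓ))` of the Igusa scheme is
integral as soon as `B_fin ⊗ K` and `B_inf ⊗ K` are domains and `B_mid ⊗ K` is nontrivial
(`B_S = chartAlg N ℓ S`, tensor over `ℤ_(ℓ) = GaloisRep.ratLocalizedAt ℓ`, `B` on the left).

Proof: pull back the two-chart open cover `{ιFin, ιInf}`; the members are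
`Spec (B ⊗ K)` by `pullbackSpecIso`; reduced is local; a space covered by two irreducible
opens with nonempty intersection is irreducible (the intersection contains the image of
`Spec (B_mid ⊗ K)`).
-/

set_option autoImplicit false
open AlgebraicGeometry CategoryTheory CategoryTheory.Limits ModularCurve ModularCurve.IgusaScheme
open TensorProduct

namespace Fermat.Agent.S28.SCH.H10

/-- A space covered by two irreducible open subsets with nonempty intersection is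
irreducible. -/
theorem h10_irreducibleSpace_of_two {X : Type*} [TopologicalSpace X] {U V : Set X}
    (hU : IsOpen U) (hV : IsOpen V) (hUi : IsIrreducible U) (hVi : IsIrreducible V)
    (hcov : U ∪ V = Set.univ) (hne : (U ∩ V).Nonempty) : IrreducibleSpace X := by
  have hUV : IsOpen (U ∩ V) := hU.inter hV
  -- every nonempty open set meets `U ∩ V`
  have key : ∀ A : Set X, IsOpen A → A.Nonempty → (U ∩ (A ∩ V)).Nonempty := by
    intro A hA ⟨a, ha⟩
    have : a ∈ U ∪ V := by rw [hcov]; trivial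
    rcases this with haU | haV
    · have := hUi.2 A (U ∩ V) hA hUV ⟨a, haU, ha⟩ (by
        obtain ⟨x, hx⟩ := hne
        exact ⟨x, hx.1, hx⟩)
      obtain ⟨x, hxU, hxA, hxU', hxV⟩ := this
      exact ⟨x, hxU, hxA, hxV⟩
    · have := hVi.2 A (U ∩ V) hA hUV ⟨a, haV, ha⟩ (by
        obtain ⟨x, hx⟩ := hne
        exact ⟨x, hx.2, hx⟩)
      obtain ⟨x, hxV, hxA, hxU, hxV'⟩ := this
      exact ⟨x, hxU, hxA, hxV⟩
  have hpre : IsPreirreducible (Set.univ : Set X) := by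
    intro A B hA hB ⟨a, _, ha⟩ ⟨b, _, hb⟩
    obtain ⟨x, hxU, hxA, hxV⟩ := key A hA ⟨a, ha⟩
    obtain ⟨y, hyU, hyB, hyV⟩ := key B hB ⟨b, hb⟩
    obtain ⟨z, hzU, hzA, hzB⟩ := hUi.2 A B hA hB ⟨x, hxU, hxA⟩ ⟨y, hyU, hyB⟩
    exact ⟨z, trivial, hzA, hzB⟩
  exact { toPreirreducibleSpace := ⟨hpre⟩, toNonempty := ⟨hne.some⟩ }

variable (N : ℕ) [NeZero N] (ℓ : ℕ) [Fact ℓ.Prime]


/-- objects of the two-chart cover -/
noncomputable def h10_obj : Bool → Scheme.{0}
  | true => XFin N ℓ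
  | false => XInf N ℓ

/-- maps of the two-chart cover -/
noncomputable def h10_map : (b : Bool) → h10_obj N ℓ b ⟶ ModularCurve.IgusaScheme N ℓ
  | true => ιFin N ℓ
  | false => ιInf N ℓ

instance h10_map_isOpenImmersion (b : Bool) : IsOpenImmersion (h10_map N ℓ b) := by
  cases b
  · exact isOpenImmersion_ιInf N ℓ
  · exact isOpenImmersion_ιFin N ℓ

/-- The two-chart open cover of the Igusa scheme. -/
noncomputable def h10_cover : (ModularCurve.IgusaScheme N ℓ).OpenCover :=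
  Scheme.Cover.mkOfCovers Bool (h10_obj N ℓ) (h10_map N ℓ) (by
    intro x
    rcases mem_range_ιFin_or_mem_range_ιInf N ℓ x with ⟨y, hy⟩ | ⟨y, hy⟩
    · exact ⟨true, y, hy⟩
    · exact ⟨false, y, hy⟩) (fun b => h10_map_isOpenImmersion N ℓ b)


variable (K : Type) [Field K] [Algebra ↥(GaloisRep.ratLocalizedAt ℓ) K]

/-- the base change morphism `Spec K ⟶ Spec ℤ_(ℓ)` -/
noncomputable abbrev h10_g : Spec (CommRingCat.of K) ⟶
    Spec (CommRingCat.of ↥(GaloisRep.ratLocalizedAt ℓ)) :=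
  Spec.map (CommRingCat.ofHom (algebraMap ↥(GaloisRep.ratLocalizedAt ℓ) K))

/-- The fibre `Y = X ×_{ℤ_(ℓ)} K`. -/
noncomputable abbrev h10_Y : Scheme.{0} := pullback (igusaTo N ℓ) (h10_g ℓ K)

/-- The pulled-back two-chart cover of the fibre. -/
noncomputable def h10_coverY : (h10_Y N ℓ K).OpenCover :=
  Scheme.Pullback.openCoverOfLeft (h10_cover N ℓ) (igusaTo N ℓ) (h10_g ℓ K)


/-- the fibre of the finite chart is `Spec (B_fin ⊗ K)` -/
noncomputable def h10_isoFin :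
    pullback (ιFin N ℓ ≫ igusaTo N ℓ) (h10_g ℓ K) ≅
      Spec (CommRingCat.of (↥(chartAlgFin N ℓ) ⊗[↥(GaloisRep.ratLocalizedAt ℓ)] K)) :=
  pullback.congrHom (ιFin_igusaTo N ℓ) rfl ≪≫
    pullbackSpecIso ↥(GaloisRep.ratLocalizedAt ℓ) ↥(chartAlgFin N ℓ) K

/-- the fibre of the infinite chart is `Spec (B_inf ⊗ K)` -/
noncomputable def h10_isoInf :
    pullback (ιInf N ℓ ≫ igusaTo N ℓ) (h10_g ℓ K) ≅
      Spec (CommRingCat.of (↥(chartAlgInf N ℓ) ⊗[↥(GaloisRep.ratLocalizedAt ℓ)] K)) :=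
  pullback.congrHom (ιInf_igusaTo N ℓ) rfl ≪≫
    pullbackSpecIso ↥(GaloisRep.ratLocalizedAt ℓ) ↥(chartAlgInf N ℓ) K

theorem h10_mid_toBase :
    fFin N ℓ ≫ ιFin N ℓ ≫ igusaTo N ℓ =
      Spec.map (CommRingCat.ofHom
        (algebraMap ↥(GaloisRep.ratLocalizedAt ℓ) ↥(chartAlgMid N ℓ))) := by
  rw [ιFin_igusaTo, ← Spec.map_comp, ← CommRingCat.ofHom_comp]
  congr 2

/-- the fibre of the middle chart is `Spec (B_mid ⊗ K)` -/
noncomputable def h10_isoMid :
    pullback (fFin N ℓ ≫ ιFin N ℓ ≫ igusaTo N ℓ) (h10_g ℓ K) ≅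
      Spec (CommRingCat.of (↥(chartAlgMid N ℓ) ⊗[↥(GaloisRep.ratLocalizedAt ℓ)] K)) :=
  pullback.congrHom (h10_mid_toBase N ℓ) rfl ≪≫
    pullbackSpecIso ↥(GaloisRep.ratLocalizedAt ℓ) ↥(chartAlgMid N ℓ) K


section Main

variable {N ℓ K}
variable (hFin : IsDomain (↥(chartAlgFin N ℓ) ⊗[↥(GaloisRep.ratLocalizedAt ℓ)] K))
  (hInf : IsDomain (↥(chartAlgInf N ℓ) ⊗[↥(GaloisRep.ratLocalizedAt ℓ)] K))
  (hMid : Nontrivial (↥(chartAlgMid N ℓ) ⊗[↥(GaloisRep.ratLocalizedAt ℓ)] K))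

include hFin in
theorem h10_isIntegral_fin :
    IsIntegral (pullback (ιFin N ℓ ≫ igusaTo N ℓ) (h10_g ℓ K)) := by
  have : IsDomain ↑(CommRingCat.of
      (↥(chartAlgFin N ℓ) ⊗[↥(GaloisRep.ratLocalizedAt ℓ)] K)) := hFin
  exact IsIntegral.of_isIso (h10_isoFin N ℓ K).inv

include hInf in
theorem h10_isIntegral_inf :
    IsIntegral (pullback (ιInf N ℓ ≫ igusaTo N ℓ) (h10_g ℓ K)) := by
  have : IsDomain ↑(CommRingCat.of
      (↥(chartAlgInf N ℓ) ⊗[↥(GaloisRep.ratLocalizedAt ℓ)] K)) := hInf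
  exact IsIntegral.of_isIso (h10_isoInf N ℓ K).inv

include hMid in
theorem h10_nonempty_mid :
    Nonempty ↥(pullback (fFin N ℓ ≫ ιFin N ℓ ≫ igusaTo N ℓ) (h10_g ℓ K)) := by
  have : Nontrivial ↑(CommRingCat.of
      (↥(chartAlgMid N ℓ) ⊗[↥(GaloisRep.ratLocalizedAt ℓ)] K)) := hMid
  have : Nonempty ↥(Spec (CommRingCat.of
      (↥(chartAlgMid N ℓ) ⊗[↥(GaloisRep.ratLocalizedAt ℓ)] K))) := inferInstance
  exact this.map (h10_isoMid N ℓ K).inv.base


/-- the map from the fibre of the finite chart to the fibre -/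
noncomputable abbrev h10_fT : pullback (ιFin N ℓ ≫ igusaTo N ℓ) (h10_g ℓ K) ⟶ h10_Y N ℓ K :=
  pullback.map (ιFin N ℓ ≫ igusaTo N ℓ) (h10_g ℓ K) (igusaTo N ℓ) (h10_g ℓ K)
    (ιFin N ℓ) (𝟙 _) (𝟙 _) (by simp) (by simp)

/-- the map from the fibre of the infinite chart to the fibre -/
noncomputable abbrev h10_fF : pullback (ιInf N ℓ ≫ igusaTo N ℓ) (h10_g ℓ K) ⟶ h10_Y N ℓ K :=
  pullback.map (ιInf N ℓ ≫ igusaTo N ℓ) (h10_g ℓ K) (igusaTo N ℓ) (h10_g ℓ K)
    (ιInf N ℓ) (𝟙 _) (𝟙 _) (by simp) (by simp)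

theorem h10_coverY_f_true : (h10_coverY N ℓ K).f true = h10_fT (N := N) (ℓ := ℓ) (K := K) := rfl

theorem h10_coverY_f_false : (h10_coverY N ℓ K).f false = h10_fF (N := N) (ℓ := ℓ) (K := K) :=
  rfl

instance h10_fT_open : IsOpenImmersion (h10_fT (N := N) (ℓ := ℓ) (K := K)) := by
  rw [← h10_coverY_f_true]; exact (h10_coverY N ℓ K).map_prop true

instance h10_fF_open : IsOpenImmersion (h10_fF (N := N) (ℓ := ℓ) (K := K)) := by
  rw [← h10_coverY_f_false]; exact (h10_coverY N ℓ K).map_prop false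

/-- the fibre of the middle chart maps to the fibre of the finite chart -/
noncomputable abbrev h10_tFin :
    pullback (fFin N ℓ ≫ ιFin N ℓ ≫ igusaTo N ℓ) (h10_g ℓ K) ⟶
      pullback (ιFin N ℓ ≫ igusaTo N ℓ) (h10_g ℓ K) :=
  pullback.map _ _ _ _ (fFin N ℓ) (𝟙 _) (𝟙 _) (by simp) (by simp)

/-- the fibre of the middle chart maps to the fibre of the infinite chart -/
noncomputable abbrev h10_tInf :
    pullback (fFin N ℓ ≫ ιFin N ℓ ≫ igusaTo N ℓ) (h10_g ℓ K) ⟶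
      pullback (ιInf N ℓ ≫ igusaTo N ℓ) (h10_g ℓ K) :=
  pullback.map _ _ _ _ (fInf N ℓ) (𝟙 _) (𝟙 _)
    (by
      have := glue_condition N ℓ
      simp only [Category.comp_id]
      rw [← Category.assoc, this, Category.assoc]) (by simp)

theorem h10_tFin_fT_eq :
    h10_tFin (N := N) (ℓ := ℓ) (K := K) ≫ h10_fT = h10_tInf ≫ h10_fF := by
  unfold h10_tFin h10_fT h10_tInf h10_fF
  apply pullback.hom_ext
  · simp only [Category.assoc, pullback.lift_fst, pullback.lift_fst_assoc, pullback.map]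
    rw [glue_condition N ℓ]
  · simp only [Category.assoc, pullback.lift_snd, pullback.map,
      Category.comp_id]

include hFin hInf hMid in
/-- **SCH**: the fibre of the Igusa scheme over a field `K` of characteristic `ℓ` is integral as
soon as the two chart rings `B_fin ⊗ K`, `B_inf ⊗ K` are domains and `B_mid ⊗ K ≠ 0`. -/
theorem h10_isIntegral_fibre : IsIntegral (h10_Y N ℓ K) := by
  have iF := h10_isIntegral_fin hFin
  have iI := h10_isIntegral_inf hInf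
  have hred : ∀ i, IsReduced ((h10_coverY N ℓ K).X i) := by
    intro i
    cases i
    · exact (inferInstance : IsReduced (pullback (ιInf N ℓ ≫ igusaTo N ℓ) (h10_g ℓ K)))
    · exact (inferInstance : IsReduced (pullback (ιFin N ℓ ≫ igusaTo N ℓ) (h10_g ℓ K)))
  have hR : IsReduced (h10_Y N ℓ K) := IsReduced.of_openCover _ (h10_coverY N ℓ K)
  have hU : IsOpen (Set.range (h10_fT (N := N) (ℓ := ℓ) (K := K)).base) :=
    (h10_fT (N := N) (ℓ := ℓ) (K := K)).isOpenEmbedding.isOpen_range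
  have hV : IsOpen (Set.range (h10_fF (N := N) (ℓ := ℓ) (K := K)).base) :=
    (h10_fF (N := N) (ℓ := ℓ) (K := K)).isOpenEmbedding.isOpen_range
  have hUi : IsIrreducible (Set.range (h10_fT (N := N) (ℓ := ℓ) (K := K)).base) := by
    rw [← Set.image_univ]
    exact (IrreducibleSpace.isIrreducible_univ _).image _
      (h10_fT (N := N) (ℓ := ℓ) (K := K)).continuous.continuousOn
  have hVi : IsIrreducible (Set.range (h10_fF (N := N) (ℓ := ℓ) (K := K)).base) := by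
    rw [← Set.image_univ]
    exact (IrreducibleSpace.isIrreducible_univ _).image _
      (h10_fF (N := N) (ℓ := ℓ) (K := K)).continuous.continuousOn
  have hcov : Set.range (h10_fT (N := N) (ℓ := ℓ) (K := K)).base ∪
      Set.range (h10_fF (N := N) (ℓ := ℓ) (K := K)).base = Set.univ := by
    rw [Set.eq_univ_iff_forall]
    intro y
    obtain ⟨i, x, hx⟩ := (h10_coverY N ℓ K).exists_eq y
    cases i
    · exact Or.inr ⟨x, hx⟩
    · exact Or.inl ⟨x, hx⟩
  have hne : (Set.range (h10_fT (N := N) (ℓ := ℓ) (K := K)).base ∩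
      Set.range (h10_fF (N := N) (ℓ := ℓ) (K := K)).base).Nonempty := by
    obtain ⟨t⟩ := h10_nonempty_mid hMid
    refine ⟨(h10_tFin (N := N) (ℓ := ℓ) (K := K) ≫ h10_fT).base t, ⟨_, rfl⟩, ?_⟩
    rw [h10_tFin_fT_eq]
    exact ⟨_, rfl⟩
  have hI : IrreducibleSpace ↥(h10_Y N ℓ K) :=
    h10_irreducibleSpace_of_two hU hV hUi hVi hcov hne
  exact isIntegral_of_irreducibleSpace_of_isReduced _

end Main

/-- **SCH** in the exact shape of S28. -/
theorem h10_sch (N : ℕ) [NeZero N] (ℓ : ℕ) [Fact ℓ.Prime]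
    (K : Type) [Field K] [Algebra ↥(GaloisRep.ratLocalizedAt ℓ) K]
    (hFin : IsDomain (↥(chartAlgFin N ℓ) ⊗[↥(GaloisRep.ratLocalizedAt ℓ)] K))
    (hInf : IsDomain (↥(chartAlgInf N ℓ) ⊗[↥(GaloisRep.ratLocalizedAt ℓ)] K))
    (hMid : Nontrivial (↥(chartAlgMid N ℓ) ⊗[↥(GaloisRep.ratLocalizedAt ℓ)] K)) :
    IsIntegral (pullback (igusaTo N ℓ)
      (Spec.map (CommRingCat.ofHom (algebraMap ↥(GaloisRep.ratLocalizedAt ℓ) K)))) :=
  h10_isIntegral_fibre hFin hInf hMid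

end Fermat.Agent.S28.SCH.H10
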