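import Fermat.Agent.S28.Asm.Defs
import Fermat.Agent.S28.SCH.H10_Glue

/-!
# S28 / package SCH (helper10): the deliverable `Asm.StSCH`
-/

set_option autoImplicit false
open AlgebraicGeometry CategoryTheory CategoryTheory.Limits ModularCurve ModularCurve.IgusaScheme
open scoped TensorProduct

namespace Fermat.Agent.S28.SCH.H10

/-- **Deliverable of package SCH**, verbatim `Asm.StSCH`. -/
theorem stSCH : Fermat.Agent.S28.Asm.StSCH := by
  intro N _ ℓ _ K _ _ _ hFin hInf hMid
  exact h10_sch N ℓ K hFin hInf hMid

end Fermat.Agent.S28.SCH.H10
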